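import Mathlib
import Fermat.Prelude.Def_CuspForm_HeckeLocal
import Fermat.Prelude.Def_CuspForm_HeckeEvalForms
import Fermat.Prelude.Def_HeckeGalois_EichlerShimura
import Fermat.Prelude.Def_ModularCurve_ModularUnit

/-!
# S16, package RED-A: the formal reduction `T ⧸ I ≃ ℤ ⧸ n`

`T = heckeLatticeAlgebra p ∅`, `I = ` image of the Eisenstein ideal.  The quotient `T ⧸ I`
is a quotient of `ℤ`, and its cardinality is `n` as soon as
`{ε(P) | P ∈ HeckeAlg, P acts as 0} = nℤ`  (`ε` = the Eisenstein evaluation).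
-/

set_option autoImplicit false

noncomputable section

namespace Fermat.Agent.S16.H79

open ModularCurve CuspForm

/-- The Eisenstein evaluation `ε : ℤ[X_ℓ] → ℤ`, `X_ℓ ↦ 1 + ℓ` (`ℓ ∤ N`), `X_q ↦ 1` (`q ∣ N`). -/
def eisEval (N : ℕ) : HeckeAlg →ₐ[ℤ] ℤ := MvPolynomial.aeval (eisensteinSystem N)

theorem mem_eisensteinIdeal_iff (N : ℕ) (P : HeckeAlg) :
    P ∈ eisensteinIdeal N ↔ eisEval N P = 0 :=
  mem_eigenIdeal_iff _ _

@[simp] theorem eisEval_C (N : ℕ) (a : ℤ) : eisEval N (MvPolynomial.C a) = a := by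
  simp [eisEval]

theorem sub_C_eisEval_mem (N : ℕ) (P : HeckeAlg) :
    P - MvPolynomial.C (eisEval N P) ∈ eisensteinIdeal N := by
  rw [mem_eisensteinIdeal_iff, map_sub, eisEval_C, sub_self]

section Surj

variable (N : ℕ) [NeZero N] (k : ℤ)

theorem heckeEvalForms_surjective : Function.Surjective (heckeEvalForms N k) := by
  intro t
  obtain ⟨t, ht⟩ := t
  have key : heckeAlgebra N k ∅ ≤
      ((heckeAlgebra N k ∅).val.comp
        (MvPolynomial.aeval (R := ℤ) (heckeFormsGen N k))).range := by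
    refine Algebra.adjoin_le ?_
    rintro T (⟨ℓ, hℓ, hℓN, -, rfl⟩ | ⟨q, hqN, hq, -, rfl⟩)
    · exact ⟨heckeGen ⟨ℓ, hℓ⟩, congrArg Subtype.val
        (heckeEvalForms_heckeGen_of_not_dvd (N := N) (k := k) (ℓ := ⟨ℓ, hℓ⟩) hℓN)⟩
    · exact ⟨heckeGen ⟨q, hq⟩, congrArg Subtype.val
        (heckeEvalForms_heckeGen_of_dvd (N := N) (k := k) (q := ⟨q, hq⟩) hqN)⟩
  obtain ⟨P, hP⟩ := key ht
  exact ⟨P, Subtype.ext hP⟩

end Surj

variable (p : ℕ) [NeZero p]

/-- The composite `ℤ[X_ℓ] → 𝕋(S₂(Γ₀(p))) → 𝕋(L)` appearing in the frozen statement. -/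
def latticeEval : HeckeAlg →+* ↥(heckeLatticeAlgebra p ∅) :=
  (latticeRestrictHom p ∅).toRingHom.comp (heckeEvalForms p 2)

theorem latticeEval_surjective : Function.Surjective (latticeEval p) :=
  (latticeRestrictHom_surjective p ∅).comp (heckeEvalForms_surjective p 2)

theorem latticeEval_C (a : ℤ) :
    latticeEval p (MvPolynomial.C a) = (a : ↥(heckeLatticeAlgebra p ∅)) := by
  have h : (MvPolynomial.C a : HeckeAlg) = ((a : ℤ) : HeckeAlg) := by
    simp
  rw [h, map_intCast]

/-- The Eisenstein ideal of the lattice Hecke algebra, as in the frozen statement. -/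
def latticeEisIdeal : Ideal ↥(heckeLatticeAlgebra p ∅) :=
  Ideal.map (latticeEval p) (eisensteinIdeal p)

theorem intCast_mem_latticeEisIdeal_iff (k : ℤ) :
    (k : ↥(heckeLatticeAlgebra p ∅)) ∈ latticeEisIdeal p ↔
      ∃ P : HeckeAlg, latticeEval p P = 0 ∧ eisEval p P = k := by
  constructor
  · intro h
    obtain ⟨Q, hQ, hQk⟩ := (Ideal.mem_map_iff_of_surjective _ (latticeEval_surjective p)).1 h
    refine ⟨MvPolynomial.C k - Q, ?_, ?_⟩
    · rw [map_sub, latticeEval_C, hQk, sub_self]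
    · rw [map_sub, eisEval_C, (mem_eisensteinIdeal_iff p Q).1 hQ, sub_zero]
  · rintro ⟨P, hP, hPk⟩
    have h1 : MvPolynomial.C k - P ∈ eisensteinIdeal p := by
      rw [mem_eisensteinIdeal_iff, map_sub, eisEval_C, hPk, sub_self]
    have h2 := Ideal.mem_map_of_mem (latticeEval p) h1
    rwa [map_sub, latticeEval_C, hP, sub_zero] at h2

theorem mk_intCast_surjective :
    Function.Surjective
      (Int.castRingHom (↥(heckeLatticeAlgebra p ∅) ⧸ latticeEisIdeal p)) := by
  intro x
  obtain ⟨t, rfl⟩ := Ideal.Quotient.mk_surjective x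
  obtain ⟨P, rfl⟩ := latticeEval_surjective p t
  refine ⟨eisEval p P, ?_⟩
  have h1 := Ideal.mem_map_of_mem (latticeEval p) (sub_C_eisEval_mem p P)
  rw [map_sub, latticeEval_C] at h1
  have h2 := (Ideal.Quotient.eq (I := latticeEisIdeal p)).2 h1
  rw [h2]
  simp

/-- **RED-A.**  If the integers `ε(P)`, `P` ranging over the polynomials in the Hecke operators
that act as `0` on the lattice, are exactly the multiples of `n ≠ 0`, then `#(T ⧸ I) = n`. -/
theorem natCard_quotient_eq (n : ℕ)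
    (hker : ∀ k : ℤ, (∃ P : HeckeAlg, latticeEval p P = 0 ∧ eisEval p P = k) ↔ (n : ℤ) ∣ k) :
    Nat.card (↥(heckeLatticeAlgebra p ∅) ⧸ latticeEisIdeal p) = n := by
  have hk : RingHom.ker (Int.castRingHom (↥(heckeLatticeAlgebra p ∅) ⧸ latticeEisIdeal p)) =
      Ideal.span {(n : ℤ)} := by
    ext k
    rw [RingHom.mem_ker, Ideal.mem_span_singleton, ← hker k, ← intCast_mem_latticeEisIdeal_iff,
      ← Ideal.Quotient.eq_zero_iff_mem]
    simp
  have e := RingHom.quotientKerEquivOfSurjective (mk_intCast_surjective p)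
  rw [← Nat.card_congr e.toEquiv, Nat.card_congr (Ideal.quotEquivOfEq hk).toEquiv,
    Nat.card_congr (Int.quotientSpanNatEquivZMod n).toEquiv, Nat.card_zmod]

/-- **RED-A**, in the shape of the S16 skeleton (`#798`). -/
theorem natCard_quotient_eq_of_algebraMap_mem_iff (n : ℕ)
    (h : ∀ k : ℤ, algebraMap ℤ ↥(heckeLatticeAlgebra p ∅) k ∈
        Ideal.map ((latticeRestrictHom p ∅).toRingHom.comp (heckeEvalForms p 2))
          (eisensteinIdeal p) ↔ (n : ℤ) ∣ k) :
    Nat.card (↥(heckeLatticeAlgebra p ∅) ⧸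
        Ideal.map ((latticeRestrictHom p ∅).toRingHom.comp (heckeEvalForms p 2))
          (eisensteinIdeal p)) = n := by
  refine natCard_quotient_eq p n fun k => ?_
  rw [← intCast_mem_latticeEisIdeal_iff, ← h k, eq_intCast]
  rfl

/-- **RED-C (1).**  A polynomial in the Hecke operators that kills the lattice kills all of
`S₂(Γ₀(p))`, given the integral structure (`S23`). -/
theorem heckeEvalForms_eq_zero_of_latticeEval_eq_zero (hint : HasIntegralStructure p 2)
    {P : HeckeAlg} (h : latticeEval p P = 0) : heckeEvalForms p 2 P = 0 :=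
  (latticeRestrictHom_bijective p ∅ hint).1 (h.trans (map_zero _).symm)

theorem latticeEval_eq_zero_of_heckeEvalForms_eq_zero
    {P : HeckeAlg} (h : heckeEvalForms p 2 P = 0) : latticeEval p P = 0 := by
  rw [latticeEval, RingHom.comp_apply, h, map_zero]

theorem latticeEval_eq_zero_iff (hint : HasIntegralStructure p 2) (P : HeckeAlg) :
    latticeEval p P = 0 ↔ heckeEvalForms p 2 P = 0 :=
  ⟨heckeEvalForms_eq_zero_of_latticeEval_eq_zero p hint,
    latticeEval_eq_zero_of_heckeEvalForms_eq_zero p⟩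

/-- **RED-C (2).**  `k · 1 ∈ I` iff `k = ε(P)` for a polynomial `P` in the Hecke operators
acting as `0` on the lattice (skeleton shape: `algebraMap`, unfolded ideal). -/
theorem algebraMap_mem_map_eisensteinIdeal_iff (k : ℤ) :
    algebraMap ℤ ↥(heckeLatticeAlgebra p ∅) k ∈
        Ideal.map ((latticeRestrictHom p ∅).toRingHom.comp (heckeEvalForms p 2))
          (eisensteinIdeal p) ↔
      ∃ P : HeckeAlg, ((latticeRestrictHom p ∅).toRingHom.comp (heckeEvalForms p 2)) P = 0 ∧
        MvPolynomial.aeval (eisensteinSystem p) P = k := by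
  rw [eq_intCast]
  exact intCast_mem_latticeEisIdeal_iff p k

/-- The integers `ε(P)`, `P` acting as zero on the lattice, form an ideal of `ℤ`. -/
def kerEisIdeal : Ideal ℤ :=
  Ideal.comap (Int.castRingHom ↥(heckeLatticeAlgebra p ∅)) (latticeEisIdeal p)

theorem mem_kerEisIdeal_iff (k : ℤ) :
    k ∈ kerEisIdeal p ↔ ∃ P : HeckeAlg, latticeEval p P = 0 ∧ eisEval p P = k := by
  rw [kerEisIdeal, Ideal.mem_comap, eq_intCast]
  exact intCast_mem_latticeEisIdeal_iff p k

/-- **Assembly combinator.**  `S16` follows from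
* `lower`: `P(T) = 0` on `S₂(Γ₀(p))` implies `n ∣ ε(P)`;
* `upper`: if `m` divides `ε(P)` for all `P` acting as zero on the lattice, then `m ∣ n`
  (this is RED-B followed by UPPER);
* the integral structure (`S23`). -/
theorem natCard_quotient_eq_of_lower_upper (n : ℕ) (hint : HasIntegralStructure p 2)
    (lower : ∀ P : HeckeAlg, heckeEvalForms p 2 P = 0 →
      (n : ℤ) ∣ MvPolynomial.aeval (eisensteinSystem p) P)
    (upper : ∀ m : ℕ,
      (∀ P : HeckeAlg, ((latticeRestrictHom p ∅).toRingHom.comp (heckeEvalForms p 2)) P = 0 →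
        (m : ℤ) ∣ MvPolynomial.aeval (eisensteinSystem p) P) → m ∣ n) :
    Nat.card (↥(heckeLatticeAlgebra p ∅) ⧸
        Ideal.map ((latticeRestrictHom p ∅).toRingHom.comp (heckeEvalForms p 2))
          (eisensteinIdeal p)) = n := by
  refine natCard_quotient_eq p n fun k => ?_
  rw [← mem_kerEisIdeal_iff]
  obtain ⟨g, hg⟩ : ∃ g : ℤ, kerEisIdeal p = Ideal.span {g} :=
    ⟨_, (Ideal.span_singleton_generator (kerEisIdeal p)).symm⟩
  have hmem : ∀ j : ℤ, j ∈ kerEisIdeal p ↔ (g.natAbs : ℤ) ∣ j := by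
    intro j
    rw [hg, Ideal.mem_span_singleton, Int.natAbs_dvd]
  have hup : g.natAbs ∣ n := by
    refine upper g.natAbs fun P hP => ?_
    rw [← hmem, mem_kerEisIdeal_iff]
    exact ⟨P, hP, rfl⟩
  constructor
  · intro hk
    obtain ⟨P, hP, rfl⟩ := (mem_kerEisIdeal_iff p k).1 hk
    exact lower P (heckeEvalForms_eq_zero_of_latticeEval_eq_zero p hint hP)
  · intro hk
    rw [hmem]
    exact (Int.natCast_dvd_natCast.2 hup).trans hk

end Fermat.Agent.S16.H79
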